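import Fermat.Agent.S55.P.Glue.Defs

/-!
# S55, block (P), package P-GL-A: the prelude's `continuousH2S`, `continuousH2`, `locRes₂S`
in CORE language
-/

set_option autoImplicit false

namespace Fermat.Agent.S55.P

open NumberField ExtCitation groupCohomology

local notation "Qbar" => AlgebraicClosure ℚ
local notation "GQ" => (AlgebraicClosure ℚ ≃ₐ[ℚ] AlgebraicClosure ℚ)

variable {k : Type} [CommRing k] (S : Finset Nat.Primes) (M : Rep k GQ)

theorem levelCocyclesS₂_eq : levelCocyclesS₂ S M = Z2 (levS S) M.ρ := by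
  ext f
  rw [mem_levelCocyclesS₂_iff, mem_Z2_iff, mem_cocycles₂_iff, isLev₂_levS_iff, and_comm]

theorem levelCoboundariesS₂_eq : levelCoboundariesS₂ S M = B2 (levS S) M.ρ := by
  ext f
  rw [mem_levelCoboundariesS₂_iff, mem_B2_iff]
  constructor
  · rintro ⟨x, hx, rfl⟩
    exact ⟨x, (isLev₁_levS_iff x).2 hx, fun g h => rfl⟩
  · rintro ⟨x, hx, h⟩
    exact ⟨x, (isLev₁_levS_iff x).1 hx, funext fun ⟨g, g'⟩ => (h g g').symm⟩

theorem levelCocycles₂_eq {H : Type} [Group H] (r : H →* GQ) (N : Rep k H) :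
    levelCocycles₂ r N = Z2 (levAll.comap r) N.ρ := by
  ext f
  rw [mem_levelCocycles₂_iff, mem_Z2_iff, mem_cocycles₂_iff, isLev₂_comap_levAll_iff, and_comm]

theorem levelCoboundaries₂_eq {H : Type} [Group H] (r : H →* GQ) (N : Rep k H) :
    levelCoboundaries₂ r N = B2 (levAll.comap r) N.ρ := by
  ext f
  rw [mem_levelCoboundaries₂_iff, mem_B2_iff]
  constructor
  · rintro ⟨x, hx, rfl⟩
    exact ⟨x, (isLev₁_comap_levAll_iff r x).2 hx, fun g h => rfl⟩
  · rintro ⟨x, hx, h⟩
    exact ⟨x, (isLev₁_comap_levAll_iff r x).1 hx, funext fun ⟨g, g'⟩ => (h g g').symm⟩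

/-- the prelude's `continuousH2S` is CORE's `H2 (levS S)` -/
noncomputable def e2S : continuousH2S S M ≃ₗ[k] H2 (levS S) M.ρ :=
  Submodule.Quotient.equiv _ _ (LinearEquiv.ofEq _ _ (levelCocyclesS₂_eq S M)) (by
    ext x
    simp only [Submodule.mem_map, Submodule.mem_comap, Submodule.subtype_apply]
    constructor
    · rintro ⟨y, hy, rfl⟩
      rw [levelCoboundariesS₂_eq] at hy
      exact hy
    · intro hx
      refine ⟨⟨x.1, (levelCocyclesS₂_eq S M).symm ▸ x.2⟩, ?_, Subtype.ext rfl⟩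
      rw [levelCoboundariesS₂_eq]
      exact hx)

theorem e2S_mk (c : ↥(levelCocyclesS₂ S M)) :
    e2S S M (continuousH2Sπ S M c) =
      H2π (levS S) M.ρ ⟨c.1, (levelCocyclesS₂_eq S M) ▸ c.2⟩ := rfl

/-- the prelude's `continuousH2 r` is CORE's `H2 (levAll.comap r)` -/
noncomputable def e2 {H : Type} [Group H] (r : H →* GQ) (N : Rep k H) :
    continuousH2 r N ≃ₗ[k] H2 (levAll.comap r) N.ρ :=
  Submodule.Quotient.equiv _ _ (LinearEquiv.ofEq _ _ (levelCocycles₂_eq r N)) (by
    ext x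
    simp only [Submodule.mem_map, Submodule.mem_comap, Submodule.subtype_apply]
    constructor
    · rintro ⟨y, hy, rfl⟩
      rw [levelCoboundaries₂_eq] at hy
      exact hy
    · intro hx
      refine ⟨⟨x.1, (levelCocycles₂_eq r N).symm ▸ x.2⟩, ?_, Subtype.ext rfl⟩
      rw [levelCoboundaries₂_eq]
      exact hx)

theorem e2_mk {H : Type} [Group H] (r : H →* GQ) (N : Rep k H) (c : ↥(levelCocycles₂ r N)) :
    e2 r N (continuousH2π r N c) =
      H2π (levAll.comap r) N.ρ ⟨c.1, (levelCocycles₂_eq r N) ▸ c.2⟩ := rfl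

/-- the prelude's localisation map is CORE's restriction -/
theorem e2_locRes₂S {H : Type} [Group H] (r : H →* GQ) (x : continuousH2S S M) :
    e2 r (Rep.res r M) (locRes₂S S M r x) =
      (PairHom.res M.ρ r (cont_comap_levAll S r)).H2map (e2S S M x) := by
  obtain ⟨c, rfl⟩ := Submodule.mkQ_surjective _ x
  rfl

end Fermat.Agent.S55.P
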