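import Fermat.Agent.S55.Fc.Basic

/-!
# S55, block (P), package P-GL-B (pure CORE): restriction along `r : H →* G` versus restriction to
the subgroup `r.range`; finite groups of invertible order have no cohomology.
-/

set_option autoImplicit false

namespace Fermat.Agent.S55.P

variable {k : Type*} [CommRing k] {G H : Type} [Group G] [Group H]
variable {M : Type*} [AddCommGroup M] [Module k M]

/-- A class dies on `H` (levels pulled back along `r`) iff it dies on the subgroup `D = r.range`. -/
theorem H2map_res_eq_zero_iff (LG L : Lev G) (ρ : Representation k G M) (r : H →* G)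
    (D : Subgroup G) (hD : D = r.range) (hr : Lev.Cont (L.comap r) LG r)
    (hDc : Lev.Cont (L.sub D) LG D.subtype) (x : H2 LG ρ) :
    (PairHom.res ρ r hr).H2map x = 0 ↔ (PairHom.res ρ D.subtype hDc).H2map x = 0 := by
  subst hD
  induction x using H2_induction with
  | h c =>
  rw [PairHom.H2map_mk, PairHom.H2map_mk, H2π_eq_zero_iff, H2π_eq_zero_iff, mem_B2_iff,
    mem_B2_iff]
  constructor
  · rintro ⟨y, ⟨_, ⟨U, hU, rfl⟩, hyU⟩, hy⟩
    -- `y` factors through `r`
    have hfac : ∀ h h' : H, r h = r h' → y h = y h' := by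
      intro h h' hh
      have h1 : h' = h * (h⁻¹ * h') := by group
      rw [h1]
      refine (hyU h (h⁻¹ * h') ?_).symm
      rw [Subgroup.mem_comap, map_mul, map_inv, hh, inv_mul_cancel]
      exact U.one_mem
    have hsurj := r.rangeRestrict_surjective
    let y' : r.range → M := fun d => y (hsurj d).choose
    have hy' : ∀ h : H, y' (r.rangeRestrict h) = y h := by
      intro h
      apply hfac
      have := (hsurj (r.rangeRestrict h)).choose_spec
      exact congrArg Subtype.val this
    refine ⟨y', ⟨U.comap r.range.subtype, ⟨U, hU, rfl⟩, ?_⟩, ?_⟩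
    · intro d u hu
      obtain ⟨h, rfl⟩ := hsurj d
      obtain ⟨h₂, rfl⟩ := hsurj u
      rw [← map_mul, hy', hy']
      exact hyU h h₂ hu
    · intro d d'
      obtain ⟨h, rfl⟩ := hsurj d
      obtain ⟨h', rfl⟩ := hsurj d'
      rw [← map_mul, hy', hy', hy']
      exact hy h h'
  · rintro ⟨y', ⟨_, ⟨U, hU, rfl⟩, hyU⟩, hy⟩
    refine ⟨fun h => y' (r.rangeRestrict h), ⟨U.comap r, ⟨U, hU, rfl⟩, ?_⟩, ?_⟩
    · intro h u hu
      show y' (r.rangeRestrict (h * u)) = y' (r.rangeRestrict h)
      rw [map_mul]
      exact hyU _ _ hu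
    · intro h h'
      show _ = _ - y' (r.rangeRestrict (h * h')) + _
      rw [map_mul]
      exact hy (r.rangeRestrict h) (r.rangeRestrict h')

theorem H1map_res_eq_zero_iff (LG L : Lev G) (ρ : Representation k G M) (r : H →* G)
    (D : Subgroup G) (hD : D = r.range) (hr : Lev.Cont (L.comap r) LG r)
    (hDc : Lev.Cont (L.sub D) LG D.subtype) (x : H1 LG ρ) :
    (PairHom.res ρ r hr).H1map x = 0 ↔ (PairHom.res ρ D.subtype hDc).H1map x = 0 := by
  subst hD
  induction x using H1_induction with
  | h c =>
  rw [PairHom.H1map_mk, PairHom.H1map_mk, H1π_eq_zero_iff, H1π_eq_zero_iff, mem_B1_iff,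
    mem_B1_iff]
  constructor
  · rintro ⟨m, hm⟩
    refine ⟨m, ?_⟩
    rintro ⟨_, h, rfl⟩
    exact hm h
  · rintro ⟨m, hm⟩
    exact ⟨m, fun h => hm (r.rangeRestrict h)⟩

/-- a finite group whose order is invertible in `k` has trivial `H¹` -/
theorem H1_eq_zero_of_isUnit_card [Finite G] (L : Lev G) (ρ : Representation k G M)
    (h : IsUnit (Nat.card G : k)) (x : H1 L ρ) : x = 0 := by
  induction x using H1_induction with
  | h c =>
  rw [H1π_eq_zero_iff, mem_B1_iff]
  have := Fintype.ofFinite G
  obtain ⟨ν, hν⟩ := h.exists_left_inv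
  set T : M := ∑ j, (c : G → M) j with hT
  have key : ∀ g, (Nat.card G : k) • (c : G → M) g = T - ρ g T := by
    intro g
    have h1 : ∑ j, (c : G → M) (g * j) = T :=
      Fintype.sum_equiv (Equiv.mulLeft g) _ _ fun _ => rfl
    have h2 : ∑ j, (c : G → M) (g * j) = ρ g T + (Nat.card G : k) • (c : G → M) g := by
      simp only [Z1.mul, Finset.sum_add_distrib, hT, map_sum, Finset.sum_const, Finset.card_univ,
        Nat.card_eq_fintype_card, Nat.cast_smul_eq_nsmul]
    rw [h1] at h2
    rw [eq_sub_iff_add_eq, add_comm]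
    exact h2.symm
  refine ⟨-(ν • T), fun g => ?_⟩
  calc (c : G → M) g = ν • ((Nat.card G : k) • (c : G → M) g) := by
        rw [smul_smul, hν, one_smul]
    _ = ρ g (-(ν • T)) - -(ν • T) := by
        rw [key, smul_sub, map_neg, map_smul]
        abel

/-- a finite group whose order is invertible in `k` has trivial `H²` (for any level structure) -/
theorem H2_eq_zero_of_isUnit_card [Finite G] (L : Lev G) (ρ : Representation k G M)
    (h : IsUnit (Nat.card G : k)) (x : H2 L ρ) : x = 0 := by
  induction x using H2_induction with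
  | h c =>
  rw [H2π_eq_zero_iff, mem_B2_iff]
  have := Fintype.ofFinite G
  obtain ⟨ν, hν⟩ := h.exists_left_inv
  let S : G → M := fun g => ∑ j, (c : G × G → M) (g, j)
  have hS : ∀ g, S g = ∑ j, (c : G × G → M) (g, j) := fun _ => rfl
  have key : ∀ g g', (Nat.card G : k) • (c : G × G → M) (g, g') = ρ g (S g') - S (g * g') + S g := by
    intro g g'
    have h1 : ∑ j, (c : G × G → M) (g, g' * j) = S g :=
      Fintype.sum_equiv (Equiv.mulLeft g') _ _ fun _ => rfl
    have h2 : ∑ j, ((c : G × G → M) (g * g', j) + (c : G × G → M) (g, g')) =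
        ∑ j, (ρ g ((c : G × G → M) (g', j)) + (c : G × G → M) (g, g' * j)) :=
      Finset.sum_congr rfl fun j _ => Z2.cocycle c g g' j
    rw [Finset.sum_add_distrib, Finset.sum_add_distrib, h1, ← map_sum, ← hS, ← hS,
      Finset.sum_const, Finset.card_univ, ← Nat.card_eq_fintype_card,
      ← Nat.cast_smul_eq_nsmul k] at h2
    rw [sub_add_eq_add_sub, eq_sub_iff_add_eq, add_comm]
    exact h2
  refine ⟨fun g => ν • S g, ?_, fun g g' => ?_⟩
  · obtain ⟨U, hU, hc⟩ := Z2.isLev c
    refine ⟨U, hU, fun g u hu => ?_⟩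
    show ν • S (g * u) = ν • S g
    congr 1
    refine Finset.sum_congr rfl fun j _ => ?_
    simpa using hc g j u hu 1 U.one_mem
  · calc (c : G × G → M) (g, g') = ν • ((Nat.card G : k) • (c : G × G → M) (g, g')) := by
          rw [smul_smul, hν, one_smul]
      _ = ρ g (ν • S g') - ν • S (g * g') + ν • S g := by
          rw [key, smul_add, smul_sub, map_smul]

end Fermat.Agent.S55.P
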