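import Fermat.Agent.S55.P.Glue.H1
import Fermat.Agent.S55.P.Glue.H2
import Fermat.Agent.S55.P.Glue.Surj

/-!
# S55, block (P), package P-GL-E: the prelude's `sha₁`, `sha₂` are CORE's `Sha1`, `Sha2`;
reduction of the frozen statement to an equality of dimensions.
-/

set_option autoImplicit false

namespace Fermat.Agent.S55.P

open NumberField ExtCitation groupCohomology CategoryTheory Module

local notation "Qbar" => AlgebraicClosure ℚ
local notation "GQ" => (AlgebraicClosure ℚ ≃ₐ[ℚ] AlgebraicClosure ℚ)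

variable {k : Type} [Field k] (S : Finset Nat.Primes) (M : Rep k GQ)

theorem isOfFinOrder_complexConjugation : IsOfFinOrder complexConjugation :=
  isOfFinOrder_iff_pow_eq_one.2 ⟨2, by norm_num, complexConjugation_sq⟩

theorem finite_archimedeanDecomposition : Finite archimedeanDecomposition := by
  unfold archimedeanDecomposition
  exact Set.finite_coe_iff.2 (finite_zpowers.2 isOfFinOrder_complexConjugation)

theorem isUnit_card_archimedeanDecomposition (h2 : (2 : k) ≠ 0) :
    IsUnit (Nat.card archimedeanDecomposition : k) := by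
  have h : Nat.card archimedeanDecomposition = orderOf complexConjugation := by
    unfold archimedeanDecomposition
    exact Nat.card_zpowers _
  rw [h]
  have hd : orderOf complexConjugation ∣ 2 := orderOf_dvd_of_pow_eq_one complexConjugation_sq
  rcases (Nat.dvd_prime Nat.prime_two).1 hd with h1 | h1
  · rw [h1]; simp
  · rw [h1]; simpa using h2

/-- the archimedean component of `locTotal₂S` vanishes -/
theorem locRes₂S_archimedeanLoc (h2 : (2 : k) ≠ 0) (x : continuousH2S S M) :
    locRes₂S S M archimedeanLoc x = 0 := by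
  have := finite_archimedeanDecomposition
  apply (e2 archimedeanLoc (Rep.res archimedeanLoc M)).injective
  rw [map_zero]
  exact H2_eq_zero_of_isUnit_card _ _ (isUnit_card_archimedeanDecomposition h2) _

/-- Mathlib's `H¹` of a finite group of invertible order vanishes. -/
theorem mathlibH1_eq_zero_of_isUnit_card {G : Type} [Group G] [Finite G] (N : Rep k G)
    (h : IsUnit (Nat.card G : k)) (x : groupCohomology.H1 N) : x = 0 := by
  induction x using groupCohomology.H1_induction_on with | @h c =>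
  rw [groupCohomology.H1π_eq_zero_iff, ← mem_B1_iff_mem_coboundaries₁]
  have hc : (c : G → N) ∈ Z1 (Lev.ofFinite G) N.ρ := by
    rw [mem_Z1_iff]
    refine ⟨⟨⊥, rfl, fun g u hu => ?_⟩, fun g g' => ?_⟩
    · rw [Subgroup.mem_bot.1 hu, mul_one]
    · exact (mem_cocycles₁_iff (c : G → N)).1 c.2 g g'
  have := H1_eq_zero_of_isUnit_card (Lev.ofFinite G) N.ρ h (H1π (Lev.ofFinite G) N.ρ ⟨_, hc⟩)
  exact (H1π_eq_zero_iff _ _ _).1 this


/-- the archimedean component of `locTotal` vanishes -/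
theorem locRes_archimedeanLoc (h2 : (2 : k) ≠ 0) (x : groupCohomology.H1 M) :
    (groupCohomology.map archimedeanLoc (𝟙 (Rep.res archimedeanLoc M)) 1).hom x = 0 := by
  have := finite_archimedeanDecomposition
  exact mathlibH1_eq_zero_of_isUnit_card _ (isUnit_card_archimedeanDecomposition h2) _

theorem mem_sha₂_iff (h2 : (2 : k) ≠ 0) (x : continuousH2S S M) :
    x ∈ sha₂ S M ↔ e2S S M x ∈ Sha2 S M.ρ := by
  rw [mem_Sha2_iff, sha₂, LinearMap.mem_ker]
  have key : ∀ q : S, locRes₂S S M (primeLocalToGlobal q.1) x = 0 ↔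
      (resDec S q.1 M.ρ).H2map (e2S S M x) = 0 := by
    intro q
    rw [← (e2 (primeLocalToGlobal q.1) (Rep.res (primeLocalToGlobal q.1) M)).map_eq_zero_iff,
      e2_locRes₂S]
    exact H2map_res_eq_zero_iff (levS S) levAll M.ρ (primeLocalToGlobal q.1) (decGrp q.1)
      (decGrp_eq_range q.1) _ _ _
  constructor
  · intro h q
    exact (key q).1 (congrFun h (Sum.inr q))
  · intro h
    funext v
    rcases v with ⟨⟩ | q
    · exact locRes₂S_archimedeanLoc S M h2 x
    · exact (key q).2 (h q)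

theorem mem_sha₁_iff (h2 : (2 : k) ≠ 0) (x : H1 (levS S) M.ρ) :
    H1ToH1 S M x ∈ sha₁ S M ↔ x ∈ Sha1 S M.ρ := by
  rw [mem_Sha1_iff, sha₁, Submodule.mem_inf, LinearMap.mem_ker]
  have h1 : H1ToH1 S M x ∈ continuousH1S S M := by
    rw [← range_H1ToH1]; exact ⟨x, rfl⟩
  have key : ∀ q : S, (groupCohomology.map (primeLocalToGlobal q.1)
        (𝟙 (Rep.res (primeLocalToGlobal q.1) M)) 1).hom (H1ToH1 S M x) = 0 ↔
      (resDec S q.1 M.ρ).H1map x = 0 := by
    intro q
    rw [map_H1ToH1_eq_zero_iff]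
    exact H1map_res_eq_zero_iff (levS S) levAll M.ρ (primeLocalToGlobal q.1) (decGrp q.1)
      (decGrp_eq_range q.1) _ _ _
  constructor
  · rintro ⟨-, h⟩ q
    exact (key q).1 (congrFun h (Sum.inr q))
  · intro h
    refine ⟨h1, ?_⟩
    funext v
    rcases v with ⟨⟩ | q
    · exact locRes_archimedeanLoc M h2 _
    · exact (key q).2 (h q)

noncomputable def sha₂Equiv (h2 : (2 : k) ≠ 0) : sha₂ S M ≃ₗ[k] Sha2 S M.ρ :=
  (e2S S M).submoduleMap (sha₂ S M) ≪≫ₗ LinearEquiv.ofEq _ _ (by
    ext y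
    constructor
    · rintro ⟨x, hx, rfl⟩
      exact (mem_sha₂_iff S M h2 x).1 hx
    · intro hy
      refine ⟨(e2S S M).symm y, ?_, by simp⟩
      exact (mem_sha₂_iff S M h2 _).2 (by simpa using hy))

theorem exists_sha₁Equiv (h2 : (2 : k) ≠ 0) : Nonempty (Sha1 S M.ρ ≃ₗ[k] sha₁ S M) := by
  have hmap : (Sha1 S M.ρ).map (H1ToH1 S M) = sha₁ S M := by
    ext y
    constructor
    · rintro ⟨x, hx, rfl⟩
      exact (mem_sha₁_iff S M h2 x).2 hx
    · intro hy
      have hy1 : y ∈ LinearMap.range (H1ToH1 S M) := by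
        rw [range_H1ToH1]; exact hy.1
      obtain ⟨x, rfl⟩ := hy1
      exact ⟨x, (mem_sha₁_iff S M h2 x).1 hy, rfl⟩
  exact ⟨(Submodule.equivMapOfInjective (H1ToH1 S M) (H1ToH1_injective S M) (Sha1 S M.ρ)).trans
    (LinearEquiv.ofEq _ _ hmap)⟩

/-- linear algebra: two spaces of the same finite dimension admit a perfect pairing -/
theorem exists_nondegenerate_pairing {V W : Type*} [AddCommGroup V] [Module k V] [AddCommGroup W]
    [Module k W] [FiniteDimensional k V] [FiniteDimensional k W]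
    (h : finrank k V = finrank k W) :
    ∃ B : V →ₗ[k] W →ₗ[k] k,
      (∀ y, (∀ x, B y x = 0) → y = 0) ∧ (∀ x, (∀ y, B y x = 0) → x = 0) := by
  have e : V ≃ₗ[k] Dual k W := LinearEquiv.ofFinrankEq _ _ (h.trans Subspace.dual_finrank_eq.symm)
  refine ⟨e.toLinearMap, fun y hy => ?_, fun x hx => ?_⟩
  · apply e.injective
    rw [map_zero]
    exact LinearMap.ext hy
  · rw [← Module.forall_dual_apply_eq_zero_iff k]
    intro f
    simpa using hx (e.symm f)

/-- **Reduction of the frozen statement S55 to CORE language.** -/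
theorem result_of_finrank_eq {p : ℕ} [Fact p.Prime] (hp2 : p ≠ 2) (S : Finset Nat.Primes)
    (M : Rep (ZMod p) GQ)
    (hfin1 : Module.Finite (ZMod p) (Sha1 S (M.ρ.dual.twist (cycloChar p))))
    (hfin2 : Module.Finite (ZMod p) (Sha2 S M.ρ))
    (h : finrank (ZMod p) (Sha1 S (M.ρ.dual.twist (cycloChar p))) =
      finrank (ZMod p) (Sha2 S M.ρ)) :
    ∃ B : sha₁ S (M.dualTwist (cycloChar p)) →ₗ[ZMod p] sha₂ S M →ₗ[ZMod p] ZMod p,
      (∀ y, (∀ x, B y x = 0) → y = 0) ∧ (∀ x, (∀ y, B y x = 0) → x = 0) := by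
  have h2 : (2 : ZMod p) ≠ 0 := by
    intro h0
    have : ((2 : ℕ) : ZMod p) = 0 := by exact_mod_cast h0
    rw [ZMod.natCast_eq_zero_iff] at this
    exact hp2 ((Nat.prime_dvd_prime_iff_eq Fact.out Nat.prime_two).1 this)
  have he1 : Nonempty (Sha1 S (M.ρ.dual.twist (cycloChar p)) ≃ₗ[ZMod p]
      sha₁ S (M.dualTwist (cycloChar p))) := exists_sha₁Equiv S (M.dualTwist (cycloChar p)) h2
  obtain ⟨e1⟩ := he1
  have e2' : sha₂ S M ≃ₗ[ZMod p] Sha2 S M.ρ := sha₂Equiv S M h2
  have f1 : Module.Finite (ZMod p) (sha₁ S (M.dualTwist (cycloChar p))) := Module.Finite.equiv e1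
  have f2 : Module.Finite (ZMod p) (sha₂ S M) := Module.Finite.equiv e2'.symm
  have hh : finrank (ZMod p) (sha₁ S (M.dualTwist (cycloChar p))) = finrank (ZMod p) (sha₂ S M) :=
    e1.finrank_eq.symm.trans (h.trans e2'.finrank_eq.symm)
  exact exists_nondegenerate_pairing hh

end Fermat.Agent.S55.P
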