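import Fermat.Agent.S55.P.Lev
import Fermat.Agent.S55.P.HensDec
import Fermat.Agent.S55.Fc.Basic

/-!
# S55, block (P), prelude glue: `Ш¹`, `Ш²` in CORE language

`decGrp q = Gal(ℚ̄ / hens q) ≤ Gal(ℚ̄/ℚ)` with the levels `levAll.sub (decGrp q)`;
`Sha1 S ρ`, `Sha2 S ρ` are the kernels of the restriction maps from the level-`S` cohomology of
`Gal(ℚ̄/ℚ)` to the decomposition groups at the primes of `S` (no archimedean place).
-/

set_option autoImplicit false

namespace Fermat.Agent.S55.P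

open NumberField ExtCitation groupCohomology
open scoped Pointwise

local notation "Qbar" => AlgebraicClosure ℚ
local notation "GQ" => (AlgebraicClosure ℚ ≃ₐ[ℚ] AlgebraicClosure ℚ)

/-- the decomposition group at `q`, as a subgroup of `Gal(ℚ̄/ℚ)` -/
noncomputable def decGrp (q : Nat.Primes) : Subgroup GQ :=
  haveI : Fact (q : ℕ).Prime := ⟨q.2⟩
  (hens (q : ℕ)).fixingSubgroup

theorem decGrp_eq_fixingSubgroup (q : ℕ) [hq : Fact q.Prime] :
    decGrp ⟨q, hq.out⟩ = (hens q).fixingSubgroup := rfl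

theorem decGrp_eq_range (q : Nat.Primes) : decGrp q = (primeLocalToGlobal q).range := by
  haveI : Fact (q : ℕ).Prime := ⟨q.2⟩
  exact (range_localGaloisToGlobal (q : ℕ)).symm

theorem decGrp_eq_decompositionSubgroup (q : Nat.Primes) :
    decGrp q = (primeLocalPlace q).decompositionSubgroup ℚ := by
  haveI : Fact (q : ℕ).Prime := ⟨q.2⟩
  exact fixingSubgroup_hens (q : ℕ)

/-- the level structure of the decomposition group -/
noncomputable abbrev levDec (q : Nat.Primes) : Lev (decGrp q) := levAll.sub (decGrp q)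

theorem cont_decGrp (S : Finset Nat.Primes) (q : Nat.Primes) :
    Lev.Cont (levDec q) (levS S) (decGrp q).subtype := by
  rintro _ ⟨F, hF, rfl⟩
  exact ⟨_, ⟨_, ⟨F, hF.1, rfl⟩, rfl⟩, le_rfl⟩

theorem cont_comap_levAll (S : Finset Nat.Primes) {H : Type} [Group H] (r : H →* GQ) :
    Lev.Cont (levAll.comap r) (levS S) r := by
  rintro _ ⟨F, hF, rfl⟩
  exact ⟨_, ⟨_, ⟨F, hF.1, rfl⟩, rfl⟩, le_rfl⟩

variable {k : Type} [CommRing k] {V : Type} [AddCommGroup V] [Module k V]

/-- restriction from `(Gal(ℚ̄/ℚ), levS S)` to the decomposition group at `q` -/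
noncomputable def resDec (S : Finset Nat.Primes) (q : Nat.Primes) (ρ : Representation k GQ V) :
    PairHom (levS S) (levDec q) ρ (ρ.comp (decGrp q).subtype) :=
  PairHom.res ρ (decGrp q).subtype (cont_decGrp S q)

/-- `Ш¹_S` in CORE language -/
noncomputable def Sha1 (S : Finset Nat.Primes) (ρ : Representation k GQ V) :
    Submodule k (H1 (levS S) ρ) :=
  ⨅ q : S, LinearMap.ker (resDec S q.1 ρ).H1map

/-- `Ш²_S` in CORE language -/
noncomputable def Sha2 (S : Finset Nat.Primes) (ρ : Representation k GQ V) :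
    Submodule k (H2 (levS S) ρ) :=
  ⨅ q : S, LinearMap.ker (resDec S q.1 ρ).H2map

theorem mem_Sha1_iff {S : Finset Nat.Primes} {ρ : Representation k GQ V} (x : H1 (levS S) ρ) :
    x ∈ Sha1 S ρ ↔ ∀ q : S, (resDec S q.1 ρ).H1map x = 0 := by
  simp [Sha1, Submodule.mem_iInf]

theorem mem_Sha2_iff {S : Finset Nat.Primes} {ρ : Representation k GQ V} (x : H2 (levS S) ρ) :
    x ∈ Sha2 S ρ ↔ ∀ q : S, (resDec S q.1 ρ).H2map x = 0 := by
  simp [Sha2, Submodule.mem_iInf]

end Fermat.Agent.S55.P
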