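import Fermat.Agent.S55.P.Glue.Defs

/-!
# S55, block (P), package P-GL-D: the prelude's `continuousH1S` and `locRes` in CORE language
-/

set_option autoImplicit false

namespace Fermat.Agent.S55.P

open NumberField ExtCitation groupCohomology CategoryTheory

local notation "Qbar" => AlgebraicClosure ℚ
local notation "GQ" => (AlgebraicClosure ℚ ≃ₐ[ℚ] AlgebraicClosure ℚ)

variable {k : Type} [CommRing k] (S : Finset Nat.Primes) (M : Rep k GQ)

theorem mem_Z1_levS_iff (c : GQ → M) :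
    c ∈ Z1 (levS S) M.ρ ↔ c ∈ cocycles₁ M ∧ IsLevelConstantS₁ S c := by
  rw [mem_Z1_iff, groupCohomology.mem_cocycles₁_iff, isLev₁_levS_iff]
  exact and_comm

theorem mem_B1_iff_mem_coboundaries₁ {G : Type} [Group G] (N : Rep k G) (c : G → N) :
    c ∈ B1 N.ρ ↔ c ∈ coboundaries₁ N := by
  rw [mem_B1_iff]
  constructor
  · rintro ⟨m, hm⟩
    refine ⟨m, ?_⟩
    funext g
    rw [d₀₁_hom_apply, hm g]
  · rintro ⟨m, rfl⟩
    exact ⟨m, fun g => d₀₁_hom_apply _ _ _⟩

/-- level cocycles as Mathlib cocycles -/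
noncomputable def Z1ToCocycles₁ : ↥(Z1 (levS S) M.ρ) →ₗ[k] ↥(cocycles₁ M) where
  toFun c := ⟨c.1, ((mem_Z1_levS_iff S M c.1).1 c.2).1⟩
  map_add' _ _ := rfl
  map_smul' _ _ := rfl

/-- the comparison map `H1 (levS S) M.ρ → H1 M` -/
noncomputable def H1ToH1 : H1 (levS S) M.ρ →ₗ[k] groupCohomology.H1 M :=
  Submodule.liftQ _ ((groupCohomology.H1π M).hom ∘ₗ Z1ToCocycles₁ S M) (by
    intro c hc
    rw [LinearMap.mem_ker, LinearMap.comp_apply]
    rw [groupCohomology.H1π_eq_zero_iff]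
    exact (mem_B1_iff_mem_coboundaries₁ M c.1).1 hc)

theorem H1ToH1_mk (c : ↥(Z1 (levS S) M.ρ)) :
    H1ToH1 S M (H1π (levS S) M.ρ c) = (groupCohomology.H1π M).hom (Z1ToCocycles₁ S M c) := by
  rfl

theorem H1ToH1_injective : Function.Injective (H1ToH1 S M) := by
  rw [← LinearMap.ker_eq_bot, LinearMap.ker_eq_bot']
  intro x
  induction x using H1_induction with
  | h c =>
    intro hc
    rw [H1ToH1_mk, groupCohomology.H1π_eq_zero_iff] at hc
    rw [H1π_eq_zero_iff]
    exact (mem_B1_iff_mem_coboundaries₁ M c.1).2 hc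

theorem range_H1ToH1 : LinearMap.range (H1ToH1 S M) = continuousH1S S M := by
  ext x
  rw [mem_continuousH1S_iff]
  constructor
  · rintro ⟨y, rfl⟩
    induction y using H1_induction with
    | h c =>
      exact ⟨Z1ToCocycles₁ S M c, ((mem_Z1_levS_iff S M c.1).1 c.2).2, (H1ToH1_mk S M c).symm⟩
  · rintro ⟨c, hc, rfl⟩
    exact ⟨H1π (levS S) M.ρ ⟨c.1, (mem_Z1_levS_iff S M c.1).2 ⟨c.2, hc⟩⟩, rfl⟩

/-- the prelude's `continuousH1S` is CORE's `H1 (levS S)` -/
noncomputable def e1S : H1 (levS S) M.ρ ≃ₗ[k] continuousH1S S M :=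
  (LinearEquiv.ofInjective (H1ToH1 S M) (H1ToH1_injective S M)).trans
    (LinearEquiv.ofEq _ _ (range_H1ToH1 S M))

theorem e1S_coe (x : H1 (levS S) M.ρ) : (e1S S M x : groupCohomology.H1 M) = H1ToH1 S M x := rfl

/-- Mathlib's restriction map `H1 M ⟶ H1 (Rep.res r M)` kills the class of a level cocycle iff
CORE's restriction map does (coboundaries do not involve levels). -/
theorem map_H1ToH1_eq_zero_iff {H : Type} [Group H] (r : H →* GQ) (x : H1 (levS S) M.ρ) :
    (groupCohomology.map r (𝟙 (Rep.res r M)) 1).hom (H1ToH1 S M x) = 0 ↔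
      (PairHom.res M.ρ r (cont_comap_levAll S r)).H1map x = 0 := by
  induction x using H1_induction with
  | h c =>
    rw [H1ToH1_mk, PairHom.H1map_mk, H1π_eq_zero_iff]
    have h1 : (groupCohomology.map r (𝟙 (Rep.res r M)) 1).hom
        ((groupCohomology.H1π M).hom (Z1ToCocycles₁ S M c)) =
        (groupCohomology.H1π (Rep.res r M)).hom
          ((mapCocycles₁ r (𝟙 (Rep.res r M))).hom (Z1ToCocycles₁ S M c)) :=
      H1π_comp_map_apply r (𝟙 (Rep.res r M)) (Z1ToCocycles₁ S M c)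
    rw [h1, groupCohomology.H1π_eq_zero_iff]
    exact (mem_B1_iff_mem_coboundaries₁ (Rep.res r M) _).symm

end Fermat.Agent.S55.P
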